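/-
S56, wall W1a, helper file 1 (helper21): the structure of `k[ε] ⊗ V` and of its endomorphisms
(`A + ε B`), and `det (X + ε c X) = (1 + ε tr c) det X` in dimension 2.  Mathlib only.
-/
import Mathlib

set_option autoImplicit false

namespace Fermat.Agent.S56

open scoped TensorProduct

section General

variable {k : Type} [Field k] {V : Type} [AddCommGroup V] [Module k V]
  {D : Type} [CommRing D] [Algebra k D]

/-- The product of `A + ε B` and `A' + ε B'` when `ε² = 0`. -/
theorem w1c_end_mul_gen (ε : D) (hε : ε * ε = 0) (A B A' B' : Module.End k V) :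
    (A.baseChange D + ε • B.baseChange D) * (A'.baseChange D + ε • B'.baseChange D) =
    (A * A').baseChange D + ε • (A * B' + B * A').baseChange D := by
  rw [mul_add, add_mul, add_mul, smul_mul_smul_comm, hε, zero_smul, add_zero,
    mul_smul_comm, smul_mul_assoc, ← LinearMap.baseChange_mul, ← LinearMap.baseChange_mul,
    ← LinearMap.baseChange_mul, LinearMap.baseChange_add, smul_add]
  abel

/-- `det (1 + ε C) = 1 + ε tr C` in dimension `2` when `ε² = 0`. -/
theorem w1c_det_one_add_gen (ε : D) (hε : ε * ε = 0) (hV : Module.finrank k V = 2)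
    (C : Module.End k V) :
    LinearMap.det (1 + ε • C.baseChange D) = 1 + ε * algebraMap k D (LinearMap.trace k V C) := by
  have : Module.Finite k V := Module.finite_of_finrank_eq_succ hV
  let b₀ : Module.Basis (Fin 2) k V := Module.finBasisOfFinrankEq k V hV
  rw [← LinearMap.det_toMatrix (Algebra.TensorProduct.basis D b₀), map_add, map_smul,
    LinearMap.toMatrix_baseChange, LinearMap.toMatrix_one, Matrix.det_fin_two,
    LinearMap.trace_eq_matrix_trace k b₀ C, Matrix.trace_fin_two]
  simp only [Matrix.add_apply, Matrix.smul_apply, Matrix.map_apply, Matrix.one_apply_eq,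
    Matrix.one_apply_ne, ne_eq, Fin.zero_eq_one_iff, Fin.one_eq_zero_iff, OfNat.ofNat_ne_one,
    not_false_eq_true, zero_add, smul_eq_mul, map_add]
  linear_combination (algebraMap k D (LinearMap.toMatrix b₀ b₀ C 0 0) *
    algebraMap k D (LinearMap.toMatrix b₀ b₀ C 1 1) -
    algebraMap k D (LinearMap.toMatrix b₀ b₀ C 0 1) *
    algebraMap k D (LinearMap.toMatrix b₀ b₀ C 1 0)) * hε

/-- `det (X + ε c X) = (1 + ε tr c) det X` in dimension `2` when `ε² = 0`. -/
theorem w1c_det_gen (ε : D) (hε : ε * ε = 0) (hV : Module.finrank k V = 2)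
    (c X : Module.End k V) :
    LinearMap.det (X.baseChange D + ε • (c * X).baseChange D) =
      (1 + ε * algebraMap k D (LinearMap.trace k V c)) * algebraMap k D (LinearMap.det X) := by
  have : Module.Finite k V := Module.finite_of_finrank_eq_succ hV
  have h : X.baseChange D + ε • (c * X).baseChange D =
      (1 + ε • c.baseChange D) * X.baseChange D := by
    rw [add_mul, one_mul, smul_mul_assoc, ← LinearMap.baseChange_mul]
  rw [h, map_mul, w1c_det_one_add_gen ε hε hV, LinearMap.det_baseChange]

end General

section DualTensor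

variable {k : Type} [Field k] {V : Type} [AddCommGroup V] [Module k V]

/-- The constant part of an element of `k[ε] ⊗ V`. -/
noncomputable def w1cFst : DualNumber k ⊗[k] V →ₗ[k] V :=
  (TensorProduct.lid k V).toLinearMap ∘ₗ
    LinearMap.rTensor V (TrivSqZeroExt.fstHom k k k).toLinearMap

/-- The `ε`-part of an element of `k[ε] ⊗ V`. -/
noncomputable def w1cSnd : DualNumber k ⊗[k] V →ₗ[k] V :=
  (TensorProduct.lid k V).toLinearMap ∘ₗ LinearMap.rTensor V (TrivSqZeroExt.sndHom k k)

@[simp] theorem w1cFst_tmul (d : DualNumber k) (v : V) : w1cFst (d ⊗ₜ[k] v) = d.fst • v := by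
  simp [w1cFst]

@[simp] theorem w1cSnd_tmul (d : DualNumber k) (v : V) : w1cSnd (d ⊗ₜ[k] v) = d.snd • v := by
  simp [w1cSnd]

theorem w1c_decomp (x : DualNumber k ⊗[k] V) :
    x = (1 : DualNumber k) ⊗ₜ[k] w1cFst x +
      (DualNumber.eps : DualNumber k) • ((1 : DualNumber k) ⊗ₜ[k] w1cSnd x) := by
  induction x using TensorProduct.induction_on with
  | zero => simp
  | tmul d v =>
    rw [w1cFst_tmul, w1cSnd_tmul, TensorProduct.smul_tmul', smul_eq_mul, mul_one,
      TensorProduct.tmul_smul, TensorProduct.tmul_smul, TensorProduct.smul_tmul',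
      TensorProduct.smul_tmul', ← TensorProduct.add_tmul]
    congr 1
    ext <;> simp
  | add x y hx hy =>
    rw [map_add, map_add, TensorProduct.tmul_add, TensorProduct.tmul_add, smul_add]
    nth_rewrite 1 [hx, hy]
    abel

theorem w1cFst_eps_smul (x : DualNumber k ⊗[k] V) :
    w1cFst ((DualNumber.eps : DualNumber k) • x) = 0 := by
  induction x using TensorProduct.induction_on with
  | zero => simp
  | tmul d v => simp [TensorProduct.smul_tmul']
  | add x y hx hy => rw [smul_add, map_add, hx, hy, add_zero]

theorem w1cSnd_eps_smul (x : DualNumber k ⊗[k] V) :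
    w1cSnd ((DualNumber.eps : DualNumber k) • x) = w1cFst x := by
  induction x using TensorProduct.induction_on with
  | zero => simp
  | tmul d v => simp [TensorProduct.smul_tmul']
  | add x y hx hy => rw [smul_add, map_add, hx, hy, map_add]

/-- The constant part of an endomorphism of `k[ε] ⊗ V`. -/
noncomputable def w1cEndFst (T : Module.End (DualNumber k) (DualNumber k ⊗[k] V)) :
    Module.End k V :=
  w1cFst ∘ₗ (T.restrictScalars k) ∘ₗ (TensorProduct.mk k (DualNumber k) V 1)

/-- The `ε`-part of an endomorphism of `k[ε] ⊗ V`. -/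
noncomputable def w1cEndSnd (T : Module.End (DualNumber k) (DualNumber k ⊗[k] V)) :
    Module.End k V :=
  w1cSnd ∘ₗ (T.restrictScalars k) ∘ₗ (TensorProduct.mk k (DualNumber k) V 1)

theorem w1cEndFst_apply (T : Module.End (DualNumber k) (DualNumber k ⊗[k] V)) (v : V) :
    w1cEndFst T v = w1cFst (T ((1 : DualNumber k) ⊗ₜ[k] v)) := rfl

theorem w1cEndSnd_apply (T : Module.End (DualNumber k) (DualNumber k ⊗[k] V)) (v : V) :
    w1cEndSnd T v = w1cSnd (T ((1 : DualNumber k) ⊗ₜ[k] v)) := rfl

theorem w1c_tmul_eq_smul (d : DualNumber k) (v : V) :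
    d ⊗ₜ[k] v = d • ((1 : DualNumber k) ⊗ₜ[k] v) := by
  rw [TensorProduct.smul_tmul', smul_eq_mul, mul_one]

/-- Every endomorphism of `k[ε] ⊗ V` is `A + ε B` with `A`, `B` endomorphisms of `V`. -/
theorem w1c_end_decomp (T : Module.End (DualNumber k) (DualNumber k ⊗[k] V)) :
    T = (w1cEndFst T).baseChange (DualNumber k) +
      (DualNumber.eps : DualNumber k) • (w1cEndSnd T).baseChange (DualNumber k) := by
  refine TensorProduct.AlgebraTensorModule.ext fun d v => ?_
  rw [LinearMap.add_apply, LinearMap.smul_apply, LinearMap.baseChange_tmul,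
    LinearMap.baseChange_tmul, w1c_tmul_eq_smul d v, map_smul, w1c_tmul_eq_smul d (w1cEndFst T v),
    w1c_tmul_eq_smul d (w1cEndSnd T v), smul_comm (DualNumber.eps : DualNumber k) d, ← smul_add,
    w1cEndFst_apply, w1cEndSnd_apply, ← w1c_decomp]

theorem w1cEndFst_add_eps (A B : Module.End k V) :
    w1cEndFst (A.baseChange (DualNumber k) +
      (DualNumber.eps : DualNumber k) • B.baseChange (DualNumber k)) = A := by
  refine LinearMap.ext fun v => ?_
  rw [w1cEndFst_apply, LinearMap.add_apply, LinearMap.smul_apply, LinearMap.baseChange_tmul,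
    LinearMap.baseChange_tmul, map_add, w1cFst_eps_smul, add_zero, w1cFst_tmul]
  simp

theorem w1cEndSnd_add_eps (A B : Module.End k V) :
    w1cEndSnd (A.baseChange (DualNumber k) +
      (DualNumber.eps : DualNumber k) • B.baseChange (DualNumber k)) = B := by
  refine LinearMap.ext fun v => ?_
  rw [w1cEndSnd_apply, LinearMap.add_apply, LinearMap.smul_apply, LinearMap.baseChange_tmul,
    LinearMap.baseChange_tmul, map_add, w1cSnd_eps_smul, w1cSnd_tmul, w1cFst_tmul]
  simp

/-- Uniqueness of the decomposition. -/
theorem w1c_end_ext {A B A' B' : Module.End k V}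
    (h : A.baseChange (DualNumber k) + (DualNumber.eps : DualNumber k) • B.baseChange (DualNumber k)
      = A'.baseChange (DualNumber k) +
        (DualNumber.eps : DualNumber k) • B'.baseChange (DualNumber k)) : A = A' ∧ B = B' := by
  constructor
  · rw [← w1cEndFst_add_eps A B, h, w1cEndFst_add_eps]
  · rw [← w1cEndSnd_add_eps A B, h, w1cEndSnd_add_eps]

/-- The product of `A + ε B` and `A' + ε B'`. -/
theorem w1c_end_mul (A B A' B' : Module.End k V) :
    (A.baseChange (DualNumber k) + (DualNumber.eps : DualNumber k) • B.baseChange (DualNumber k)) *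
      (A'.baseChange (DualNumber k) +
        (DualNumber.eps : DualNumber k) • B'.baseChange (DualNumber k)) =
    (A * A').baseChange (DualNumber k) +
      (DualNumber.eps : DualNumber k) • (A * B' + B * A').baseChange (DualNumber k) :=
  w1c_end_mul_gen (DualNumber.eps : DualNumber k) DualNumber.eps_mul_eps A B A' B'

/-- `det (X + ε c X) = (1 + ε tr c) det X` over the dual numbers, in dimension `2`. -/
theorem w1c_det (hV : Module.finrank k V = 2) (c X : Module.End k V) :
    LinearMap.det (X.baseChange (DualNumber k) +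
        (DualNumber.eps : DualNumber k) • (c * X).baseChange (DualNumber k)) =
      (1 + (DualNumber.eps : DualNumber k) *
        algebraMap k (DualNumber k) (LinearMap.trace k V c)) *
        algebraMap k (DualNumber k) (LinearMap.det X) :=
  w1c_det_gen (DualNumber.eps : DualNumber k) DualNumber.eps_mul_eps hV c X

end DualTensor

end Fermat.Agent.S56
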