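/-
S56, wall W1a, helper file 2 (helper21): a deformation of `ρbar` to a local `k`-algebra `D` has a
`D`-basis lifting a given `k`-basis of `ρbar`, in which it is congruent to `ρbar` modulo the
maximal ideal.
-/
import Mathlib
import Fermat.Prelude.Def_GaloisRep_Adic

set_option autoImplicit false
set_option linter.style.haveILetI false

namespace Fermat.Agent.S56

open scoped TensorProduct
open IsLocalRing

/-- Lifting the residual isomorphism: a deformation `ρ` of `ρbar` to a local `k`-algebra `D` has a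
`D`-basis in which it is congruent to `ρbar` modulo the maximal ideal. -/
theorem w1c_exists_lift {k : Type} [Field k] {D : Type} [CommRing D] [IsLocalRing D] [Algebra k D]
    (ρ : GaloisRepAdic D) (ρbar : ResidualGaloisRep k)
    (h : letI : Algebra k (ResidueField D) :=
        ((IsLocalRing.residue D).comp (algebraMap k D)).toAlgebra
      ρ.residual.IsEquiv (ρbar.baseChange (ResidueField D))) :
    ∃ e : (D ⊗[k] ρbar.V) ≃ₗ[D] ρ.V,
      ∀ (σ : AlgebraicClosure ℚ ≃ₐ[ℚ] AlgebraicClosure ℚ) (x : D ⊗[k] ρbar.V),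
        ρ.ρ σ (e x) - e ((ρbar.ρ σ).baseChange D x) ∈
          (maximalIdeal D) • (⊤ : Submodule D ρ.V) := by
  letI : Algebra k (ResidueField D) := ((IsLocalRing.residue D).comp (algebraMap k D)).toAlgebra
  letI : Module k (ResidueField D) := Algebra.toModule
  obtain ⟨E₀⟩ := h
  let E : (ResidueField D ⊗[D] ρ.V) ≃ₗ[ResidueField D] (ResidueField D ⊗[k] ρbar.V) :=
    E₀.toLinearEquiv
  have hE : ∀ (σ : AlgebraicClosure ℚ ≃ₐ[ℚ] AlgebraicClosure ℚ) (x : ResidueField D ⊗[D] ρ.V),
      E ((ρ.ρ σ).baseChange (ResidueField D) x) = (ρbar.ρ σ).baseChange (ResidueField D) (E x) :=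
    fun σ x => E₀.map_apply σ x
  clear_value E
  let b₀ : Module.Basis (Fin 2) k ρbar.V := Module.finBasisOfFinrankEq k ρbar.V ρbar.finrank_eq
  let β : Module.Basis (Fin 2) (ResidueField D) (ResidueField D ⊗[D] ρ.V) :=
    (Algebra.TensorProduct.basis (ResidueField D) b₀).map E.symm
  have hsurj : Function.Surjective (TensorProduct.mk D (ResidueField D) ρ.V 1) :=
    TensorProduct.mk_surjective D ρ.V (ResidueField D) Ideal.Quotient.mk_surjective
  choose v hv using fun i => hsurj (β i)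
  have hspan : Submodule.span D (Set.range v) = ⊤ :=
    IsLocalRing.span_eq_top_of_tmul_eq_basis v β hv
  let b₁ : Module.Basis (Fin 2) D ρ.V :=
    basisOfTopLeSpanOfCardEqFinrank v hspan.ge (by simp [ρ.finrank_eq])
  let e : (D ⊗[k] ρbar.V) ≃ₗ[D] ρ.V :=
    (Algebra.TensorProduct.basis D b₀).equiv b₁ (Equiv.refl _)
  refine ⟨e, ?_⟩
  have he : ∀ i, e ((1 : D) ⊗ₜ[k] b₀ i) = v i := by
    intro i
    have h1 : e (Algebra.TensorProduct.basis D b₀ i) = b₁ (Equiv.refl _ i) :=
      Module.Basis.equiv_apply _ _ _ _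
    rw [Algebra.TensorProduct.basis_apply] at h1
    rw [h1, Equiv.refl_apply, coe_basisOfTopLeSpanOfCardEqFinrank]
  have hA : ∀ u : ρbar.V, E ((1 : ResidueField D) ⊗ₜ[D] e ((1 : D) ⊗ₜ[k] u)) =
      (1 : ResidueField D) ⊗ₜ[k] u := by
    intro u
    have hu : u ∈ Submodule.span k (Set.range b₀) := by rw [b₀.span_eq]; trivial
    induction hu using Submodule.span_induction with
    | mem x hx =>
      obtain ⟨i, rfl⟩ := hx
      rw [he]
      have h2 := hv i
      rw [TensorProduct.mk_apply] at h2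
      rw [h2]
      show E (E.symm (Algebra.TensorProduct.basis (ResidueField D) b₀ i)) = _
      rw [LinearEquiv.apply_symm_apply, Algebra.TensorProduct.basis_apply]
    | zero => rw [TensorProduct.tmul_zero, map_zero, TensorProduct.tmul_zero, map_zero,
        TensorProduct.tmul_zero]
    | add x y _ _ hx hy =>
      rw [TensorProduct.tmul_add, map_add, TensorProduct.tmul_add, map_add, hx, hy,
        TensorProduct.tmul_add]
    | smul a x _ hx =>
      have h1 : (1 : D) ⊗ₜ[k] (a • x) = (algebraMap k D a) • ((1 : D) ⊗ₜ[k] x) := by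
        rw [TensorProduct.tmul_smul, algebraMap_smul]
      have h2 : (1 : ResidueField D) ⊗ₜ[D] ((algebraMap k D a) • e ((1 : D) ⊗ₜ[k] x)) =
          (algebraMap k (ResidueField D) a) •
            ((1 : ResidueField D) ⊗ₜ[D] e ((1 : D) ⊗ₜ[k] x)) := by
        rw [TensorProduct.tmul_smul, ← algebraMap_smul (ResidueField D) (algebraMap k D a)]
        rfl
      rw [h1, map_smul, h2, map_smul, hx, algebraMap_smul, TensorProduct.tmul_smul]
  have h1 : ∀ (σ : AlgebraicClosure ℚ ≃ₐ[ℚ] AlgebraicClosure ℚ) (u : ρbar.V),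
      ρ.ρ σ (e ((1 : D) ⊗ₜ[k] u)) - e ((1 : D) ⊗ₜ[k] ρbar.ρ σ u) ∈
        (maximalIdeal D) • (⊤ : Submodule D ρ.V) := by
    intro σ u
    rw [← LinearMap.ker_tensorProductMk (I := maximalIdeal D) (Q := ρ.V), LinearMap.mem_ker,
      map_sub, sub_eq_zero]
    apply E.injective
    have h3 := hE σ ((1 : ResidueField D) ⊗ₜ[D] e ((1 : D) ⊗ₜ[k] u))
    rw [LinearMap.baseChange_tmul, hA, LinearMap.baseChange_tmul] at h3
    show E ((1 : ResidueField D) ⊗ₜ[D] ρ.ρ σ (e ((1 : D) ⊗ₜ[k] u))) =
      E ((1 : ResidueField D) ⊗ₜ[D] e ((1 : D) ⊗ₜ[k] ρbar.ρ σ u))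
    rw [h3, hA]
  intro σ x
  induction x using TensorProduct.induction_on with
  | zero => simp
  | tmul d u =>
    have h2 : d ⊗ₜ[k] u = d • ((1 : D) ⊗ₜ[k] u) := by
      rw [TensorProduct.smul_tmul', smul_eq_mul, mul_one]
    have h3 : d ⊗ₜ[k] (ρbar.ρ σ u) = d • ((1 : D) ⊗ₜ[k] ρbar.ρ σ u) := by
      rw [TensorProduct.smul_tmul', smul_eq_mul, mul_one]
    rw [LinearMap.baseChange_tmul, h2, h3, map_smul, map_smul, map_smul, ← smul_sub]
    exact Submodule.smul_mem _ _ (h1 σ u)
  | add x y hx hy =>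
    rw [map_add, map_add, map_add, map_add, add_sub_add_comm]
    exact Submodule.add_mem _ hx hy

end Fermat.Agent.S56
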