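/-
S56, wall W1a, helper file 3 (helper21): the core of W1a-1 over a general field `k`: a deformation
of `ρbar` to `k[ε]` with cyclotomic determinant is `(1 + ε c) ρbar` for a level-constant
trace-zero cocycle `c`.
-/
import Fermat.Agent.S56.W1.Defs
import Fermat.Agent.S56.W1.Cocycle.DualTensor
import Fermat.Agent.S56.W1.Cocycle.Lift
import Fermat.Prelude.Def_GaloisRep_LocalConditions

set_option autoImplicit false
set_option linter.style.haveILetI false

namespace Fermat.Agent.S56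

open Fermat.Agent.F4 IsLocalRing groupCohomology
open scoped TensorProduct

/-- Every automorphism acts on `μ_p` as a power map. -/
theorem w1c_exists_pow (p : ℕ) [Fact p.Prime] (σ : GQ) :
    ∃ a : ℕ, ∀ μ : AlgebraicClosure ℚ, μ ^ p ^ 1 = 1 → σ μ = μ ^ a := by
  haveI : NeZero (p ^ 1) := ⟨pow_ne_zero _ (Fact.out : p.Prime).ne_zero⟩
  haveI : NeZero ((p ^ 1 : ℕ) : AlgebraicClosure ℚ) :=
    ⟨Nat.cast_ne_zero.mpr (pow_ne_zero _ (Fact.out : p.Prime).ne_zero)⟩
  obtain ⟨ζ, hζ⟩ := HasEnoughRootsOfUnity.exists_primitiveRoot (AlgebraicClosure ℚ) (p ^ 1)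
  have hσζ : (σ ζ) ^ (p ^ 1) = 1 := by rw [← map_pow, hζ.pow_eq_one, map_one]
  obtain ⟨a, -, ha⟩ := hζ.eq_pow_of_pow_eq_one hσζ
  refine ⟨a, fun μ hμ => ?_⟩
  obtain ⟨j, -, rfl⟩ := hζ.eq_pow_of_pow_eq_one hμ
  rw [map_pow, ← ha, ← pow_mul, ← pow_mul, mul_comm]

/-- Every finite subextension of `ℚ̄/ℚ` is contained in a finite stable one. -/
theorem w1c_exists_stable (L : IntermediateField ℚ (AlgebraicClosure ℚ))
    (hL : FiniteDimensional ℚ L) :
    ∃ F : IntermediateField ℚ (AlgebraicClosure ℚ), L ≤ F ∧ FiniteDimensional ℚ F ∧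
      IsStableField F := by
  haveI : IsGalois ℚ (AlgebraicClosure ℚ) := isGalois_Qbar
  haveI : Normal ℚ (AlgebraicClosure ℚ) := IsGalois.to_normal
  refine ⟨IntermediateField.normalClosure ℚ (↥L) (AlgebraicClosure ℚ),
    IntermediateField.le_normalClosure _, normalClosure.is_finiteDimensional ℚ _ _, ?_⟩
  have hn : Normal ℚ (IntermediateField.normalClosure ℚ (↥L) (AlgebraicClosure ℚ)) :=
    normalClosure.normal ℚ _ _
  intro σ x hx
  have h := IntermediateField.normal_iff_forall_map_eq'.mp hn σ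
  rw [← h]
  exact ⟨x, hx, rfl⟩

theorem w1c_maximalIdeal_sq (k : Type) [Field k] : (maximalIdeal (DualNumber k)) ^ 2 = ⊥ := by
  rw [DualNumber.maximalIdeal_eq_span_singleton_eps, Ideal.span_singleton_pow, sq,
    DualNumber.eps_mul_eps]
  simp

/-- Elements of `𝔪 M` over the dual numbers are multiples of `ε`. -/
theorem w1c_exists_eps_smul {k : Type} [Field k] {M : Type} [AddCommGroup M]
    [Module (DualNumber k) M] {x : M}
    (hx : x ∈ (maximalIdeal (DualNumber k)) • (⊤ : Submodule (DualNumber k) M)) :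
    ∃ w : M, x = (DualNumber.eps : DualNumber k) • w := by
  refine Submodule.smul_induction_on hx ?_ ?_
  · intro r hr n _
    rw [DualNumber.maximalIdeal_eq_span_singleton_eps, Ideal.mem_span_singleton'] at hr
    obtain ⟨a, rfl⟩ := hr
    exact ⟨a • n, by rw [smul_smul, mul_comm]⟩
  · rintro x y ⟨w, rfl⟩ ⟨w', rfl⟩
    exact ⟨w + w', by rw [smul_add]⟩

/-- Core of W1a-1 over a general field `k`. -/
theorem w1c_exists_cocycle {k : Type} [Field k] (p : ℕ) [Fact p.Prime]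
    (ρbar : ResidualGaloisRep k)
    (hdet : (GaloisRepAdic.ofResidualGaloisRep ρbar).DetIsCyclotomic p)
    (ρ : GaloisRepAdic (DualNumber k)) (hdetρ : ρ.DetIsCyclotomic p)
    (hres : letI : Algebra k (ResidueField (DualNumber k)) :=
        ((IsLocalRing.residue (DualNumber k)).comp (algebraMap k (DualNumber k))).toAlgebra
      ρ.residual.IsEquiv (ρbar.baseChange (ResidueField (DualNumber k)))) :
    ∃ c : ↥(Z1 levelsAll (ad0 ρbar)), IsDefOf ρbar c.1 ρ := by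
  obtain ⟨e, he⟩ := w1c_exists_lift ρ ρbar hres
  -- the conjugated representation on `k[ε] ⊗ V`
  let N : GQ → Module.End (DualNumber k) (DualNumber k ⊗[k] ρbar.V) := fun σ =>
    (e.symm : ρ.V →ₗ[DualNumber k] DualNumber k ⊗[k] ρbar.V) ∘ₗ ρ.ρ σ ∘ₗ
      (e : DualNumber k ⊗[k] ρbar.V →ₗ[DualNumber k] ρ.V)
  have hN_apply : ∀ σ x, N σ x = e.symm (ρ.ρ σ (e x)) := fun σ x => rfl
  have hN_mul : ∀ σ τ, N (σ * τ) = N σ * N τ := by
    intro σ τ
    refine LinearMap.ext fun x => ?_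
    rw [Module.End.mul_apply, hN_apply, hN_apply, hN_apply, LinearEquiv.apply_symm_apply, map_mul,
      Module.End.mul_apply]
  have hN_fst : ∀ σ, w1cEndFst (N σ) = ρbar.ρ σ := by
    intro σ
    refine LinearMap.ext fun u => ?_
    obtain ⟨w, hw⟩ := w1c_exists_eps_smul (he σ ((1 : DualNumber k) ⊗ₜ[k] u))
    rw [LinearMap.baseChange_tmul, sub_eq_iff_eq_add] at hw
    rw [w1cEndFst_apply, hN_apply, hw, map_add, map_smul, LinearEquiv.symm_apply_apply, map_add,
      w1cFst_eps_smul, zero_add, w1cFst_tmul]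
    simp
  let b : GQ → Module.End k ρbar.V := fun σ => w1cEndSnd (N σ)
  have hN : ∀ σ, N σ = (ρbar.ρ σ).baseChange (DualNumber k) +
      (DualNumber.eps : DualNumber k) • (b σ).baseChange (DualNumber k) := by
    intro σ
    have h := w1c_end_decomp (N σ)
    rw [hN_fst] at h
    exact h
  have hb_mul : ∀ σ τ, b (σ * τ) = ρbar.ρ σ * b τ + b σ * ρbar.ρ τ := by
    intro σ τ
    have h := hN_mul σ τ
    rw [hN (σ * τ), hN σ, hN τ, w1c_end_mul] at h
    exact (w1c_end_ext h).2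
  have hinv : ∀ σ : GQ, ρbar.ρ σ * ρbar.ρ σ⁻¹ = 1 := fun σ => by
    rw [← map_mul, mul_inv_cancel, map_one]
  have hinv' : ∀ σ : GQ, ρbar.ρ σ⁻¹ * ρbar.ρ σ = 1 := fun σ => by
    rw [← map_mul, inv_mul_cancel, map_one]
  let c₀ : GQ → Module.End k ρbar.V := fun σ => b σ * ρbar.ρ σ⁻¹
  have hc₀ : ∀ σ, c₀ σ * ρbar.ρ σ = b σ := fun σ => by
    show b σ * ρbar.ρ σ⁻¹ * ρbar.ρ σ = b σ
    rw [mul_assoc, hinv', mul_one]
  -- determinants
  have hp0 : (p : k) = 0 := by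
    have h := hdet.1
    have hbot : maximalIdeal k = ⊥ :=
      (Ideal.eq_bot_or_top _).resolve_right (Ideal.IsMaximal.ne_top inferInstance)
    rw [hbot, Ideal.mem_bot] at h
    exact h
  have hpk : ((p ^ 1 : ℕ) : k) = 0 := by rw [pow_one, hp0]
  have hpD : ((p ^ 1 : ℕ) : DualNumber k) = 0 := by
    have h : ((p ^ 1 : ℕ) : DualNumber k) = algebraMap k (DualNumber k) ((p ^ 1 : ℕ) : k) := by
      rw [map_natCast]
    rw [h, hpk, map_zero]
  have hdet_eq : ∀ σ, LinearMap.det (ρ.ρ σ) =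
      algebraMap k (DualNumber k) (LinearMap.det (ρbar.ρ σ)) := by
    intro σ
    obtain ⟨a, ha⟩ := w1c_exists_pow p σ
    have h1 := hdetρ.2 1 σ a ha
    have h2 := hdet.2 1 σ a ha
    rw [hpD, Ideal.span_singleton_eq_bot.mpr rfl, Ideal.mem_bot, sub_eq_zero] at h1
    rw [hpk, Ideal.span_singleton_eq_bot.mpr rfl, Ideal.mem_bot, sub_eq_zero] at h2
    have h2' : LinearMap.det (ρbar.ρ σ) = (a : k) := h2
    rw [h1, h2', map_natCast]
  have hdetN : ∀ σ, LinearMap.det (N σ) = LinearMap.det (ρ.ρ σ) := fun σ =>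
    LinearMap.det_conj (ρ.ρ σ) e.symm
  have htr : ∀ σ, LinearMap.trace k ρbar.V (c₀ σ) = 0 := by
    intro σ
    have h1 := hdetN σ
    rw [hN σ, ← hc₀ σ, w1c_det ρbar.finrank_eq, hdet_eq σ] at h1
    have h2 : (DualNumber.eps : DualNumber k) * algebraMap k (DualNumber k)
        (LinearMap.trace k ρbar.V (c₀ σ) * LinearMap.det (ρbar.ρ σ)) = 0 := by
      rw [map_mul]
      linear_combination h1
    have h3 : LinearMap.trace k ρbar.V (c₀ σ) * LinearMap.det (ρbar.ρ σ) = 0 := by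
      have h4 := congrArg TrivSqZeroExt.snd h2
      rw [TrivSqZeroExt.algebraMap_eq_inl, TrivSqZeroExt.snd_mul, TrivSqZeroExt.snd_inl,
        TrivSqZeroExt.fst_inl, DualNumber.snd_eps, smul_zero, zero_add, TrivSqZeroExt.snd_zero]
        at h4
      simpa using h4
    have hd : LinearMap.det (ρbar.ρ σ) ≠ 0 := by
      intro h0
      have h5 := congrArg LinearMap.det (hinv σ)
      rw [map_mul, h0, zero_mul, map_one] at h5
      exact zero_ne_one h5
    exact (mul_eq_zero.mp h3).resolve_right hd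
  let c : GQ → ad0 ρbar := fun σ =>
    (⟨c₀ σ, LinearMap.mem_ker.mpr (htr σ)⟩ : ↥(ad0Sub ρbar))
  have hcoc : c ∈ cocycles₁ (ad0 ρbar) := by
    refine (mem_cocycles₁_iff c).mpr fun g h => Subtype.ext ?_
    show b (g * h) * ρbar.ρ (g * h)⁻¹ =
      ρbar.ρ g * (b h * ρbar.ρ h⁻¹ * ρbar.ρ g⁻¹) + b g * ρbar.ρ g⁻¹
    have e1 : ρbar.ρ g * b h * (ρbar.ρ h⁻¹ * ρbar.ρ g⁻¹) =
        ρbar.ρ g * (b h * ρbar.ρ h⁻¹ * ρbar.ρ g⁻¹) := by
      simp only [mul_assoc]
    have e2 : b g * ρbar.ρ h * (ρbar.ρ h⁻¹ * ρbar.ρ g⁻¹) = b g * ρbar.ρ g⁻¹ := by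
      rw [mul_assoc, ← mul_assoc (ρbar.ρ h), hinv, one_mul]
    rw [hb_mul, mul_inv_rev, map_mul, add_mul, e1, e2]
  have hlc : IsLC₁ levelsAll c := by
    obtain ⟨L, hL, h1⟩ := ρ.isAdicContinuous 2
    obtain ⟨F, hLF, hF, hFs⟩ := w1c_exists_stable L hL
    refine ⟨F.fixingSubgroup, ⟨F, hF, hFs, rfl⟩, fun g s hs => ?_⟩
    have hs1 : ρ.ρ s = 1 := by
      refine LinearMap.ext fun v => ?_
      have h2 := h1 s (fun x hx => (IntermediateField.mem_fixingSubgroup_iff F s).mp hs x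
        (hLF hx)) v
      rw [w1c_maximalIdeal_sq, Submodule.bot_smul, Submodule.mem_bot, sub_eq_zero] at h2
      exact h2
    have hNgs : N (g * s) = N g := by
      refine LinearMap.ext fun x => ?_
      rw [hN_apply, hN_apply, map_mul, hs1, mul_one]
    have hρgs : ρbar.ρ (g * s) = ρbar.ρ g := by rw [← hN_fst, hNgs, hN_fst]
    have hbgs : b (g * s) = b g := by
      show w1cEndSnd (N (g * s)) = w1cEndSnd (N g)
      rw [hNgs]
    have hinvgs : ρbar.ρ (g * s)⁻¹ = ρbar.ρ g⁻¹ :=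
      left_inv_eq_right_inv (a := ρbar.ρ g) (by rw [← hρgs]; exact hinv' _) (hinv g)
    exact Subtype.ext (show b (g * s) * ρbar.ρ (g * s)⁻¹ = b g * ρbar.ρ g⁻¹ by
      rw [hbgs, hinvgs])
  refine ⟨⟨c, hcoc, hlc⟩, e, fun σ x => ?_⟩
  show ρ.ρ σ (e x) = e (defEnd ρbar (c₀ σ) σ x)
  have h1 : defEnd ρbar (c₀ σ) σ = N σ := by
    rw [defEnd, hc₀, ← hN]
  rw [h1, hN_apply, LinearEquiv.apply_symm_apply]

end Fermat.Agent.S56
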