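/-
S56, wall W1a, part 2 (owner: helper88; split agreed with helper21):
* `w1c_isEquiv_of_isDefOf`  : cohomologous cocycles give equivalent deformations
                              (`1 - ε m` intertwines `(1 + ε c') ρbar` and `(1 + ε c) ρbar` when
                              `c - c' = d m`);
* `w1c_tangentCardLe_of`    : if every tangent point comes from a cocycle and the set of tangent
                              classes is finite with at most `N` elements, then `TangentCardLe … N`.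
-/
import Fermat.Agent.S56.W1.Defs

set_option autoImplicit false

namespace Fermat.Agent.S56

open Fermat.Agent.F4 IsLocalRing groupCohomology
open scoped TensorProduct

section Intertwine

variable {k : Type} [Field k] (ρbar : ResidualGaloisRep k)

/-- `defEnd` in the endomorphism ring. -/
theorem w1c_defEnd_eq (c : Module.End k ρbar.V) (σ : GQ) :
    defEnd ρbar c σ = (ρbar.ρ σ).baseChange (DualNumber k) +
      (DualNumber.eps : DualNumber k) •
        ((c.baseChange (DualNumber k)) * ((ρbar.ρ σ).baseChange (DualNumber k))) := by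
  unfold defEnd
  rw [LinearMap.baseChange_mul]

/-- The key identity: if `c R - c' R = R m - m R` then `(1 - ε m)(R + ε c' R) = (R + ε c R)(1 - ε m)`
in any algebra over a ring with an element `ε` of square zero. -/
theorem w1c_intertwine_identity {A E : Type*} [CommRing A] [Ring E] [Algebra A E]
    (ε : A) (hε : ε * ε = 0) (R C C' M : E) (h : C * R - C' * R = R * M - M * R) :
    (1 - ε • M) * (R + ε • (C' * R)) = (R + ε • (C * R)) * (1 - ε • M) := by
  have hεε : ∀ X Y : E, (ε • X) * (ε • Y) = 0 := fun X Y => by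
    rw [smul_mul_smul_comm, hε, zero_smul]
  have key : ε • (C' * R) - ε • (M * R) = ε • (C * R) - ε • (R * M) := by
    have := congrArg (fun x => ε • x) h
    simp only [smul_sub] at this
    rw [sub_eq_sub_iff_add_eq_add] at this ⊢
    rw [add_comm, ← this, add_comm]
  rw [sub_mul, one_mul, mul_add, smul_mul_assoc, hεε, add_zero, mul_sub, mul_one, add_mul,
    mul_smul_comm, hεε, add_zero, add_sub_assoc, add_sub_assoc, key]

/-- `1 - ε m` is invertible with inverse `1 + ε m`. -/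
theorem w1c_unit_identity {A E : Type*} [CommRing A] [Ring E] [Algebra A E]
    (ε : A) (hε : ε * ε = 0) (M : E) :
    (1 - ε • M) * (1 + ε • M) = 1 ∧ (1 + ε • M) * (1 - ε • M) = 1 := by
  have hεε : ∀ X Y : E, (ε • X) * (ε • Y) = 0 := fun X Y => by
    rw [smul_mul_smul_comm, hε, zero_smul]
  constructor
  · rw [sub_mul, one_mul, mul_add, mul_one, hεε, add_zero, add_sub_cancel_right]
  · rw [add_mul, one_mul, mul_sub, mul_one, hεε, sub_zero, sub_add_cancel]

/-- W1a-2: the class of the cocycle determines the deformation up to equivalence. -/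
theorem w1c_isEquiv_of_isDefOf (c c' : ↥(Z1 levelsAll (ad0 ρbar)))
    (ρ ρ' : GaloisRepAdic (DualNumber k))
    (h : IsDefOf ρbar c.1 ρ) (h' : IsDefOf ρbar c'.1 ρ')
    (hcc : H1smπ levelsAll (ad0 ρbar) c = H1smπ levelsAll (ad0 ρbar) c') : ρ.IsEquiv ρ' := by
  obtain ⟨e, he⟩ := h
  obtain ⟨e', he'⟩ := h'
  -- the coboundary
  have hmem : c - c' ∈ (B1 (ad0 ρbar)).comap (Z1 levelsAll (ad0 ρbar)).subtype :=
    (Submodule.Quotient.eq _).1 hcc
  obtain ⟨m, hm⟩ := hmem
  have hm' : ∀ σ : GQ, (c.1 σ : ↥(ad0Sub ρbar)).1 - (c'.1 σ : ↥(ad0Sub ρbar)).1 =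
      ρbar.ρ σ * ((m : ↥(ad0Sub ρbar)).1 * ρbar.ρ σ⁻¹) - (m : ↥(ad0Sub ρbar)).1 := by
    intro σ
    have h1 := congrFun hm σ
    have h2 := congrArg (fun x : ↥(ad0Sub ρbar) => x.1) h1
    exact h2.symm
  -- the relation in `End_k V`
  have hrel : ∀ σ : GQ, (c'.1 σ : ↥(ad0Sub ρbar)).1 * ρbar.ρ σ - (c.1 σ : ↥(ad0Sub ρbar)).1 * ρbar.ρ σ
      = ρbar.ρ σ * (-(m : ↥(ad0Sub ρbar)).1) - (-(m : ↥(ad0Sub ρbar)).1) * ρbar.ρ σ := by
    intro σ
    have h1 : ρbar.ρ σ⁻¹ * ρbar.ρ σ = 1 := by rw [← map_mul, inv_mul_cancel, map_one]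
    have h2 := congrArg (fun x => x * ρbar.ρ σ) (hm' σ)
    simp only [sub_mul, mul_assoc, h1, mul_one] at h2
    rw [mul_neg, neg_mul, sub_neg_eq_add, ← sub_eq_neg_add, ← neg_sub, h2, neg_sub]
  set ε : DualNumber k := DualNumber.eps with hεdef
  have hε : ε * ε = 0 := DualNumber.eps_mul_eps
  set N : Module.End (DualNumber k) (DualNumber k ⊗[k] ρbar.V) :=
    (-(m : ↥(ad0Sub ρbar)).1).baseChange (DualNumber k) with hN
  have hw := w1c_unit_identity ε hε N
  let W : (DualNumber k ⊗[k] ρbar.V) ≃ₗ[DualNumber k] (DualNumber k ⊗[k] ρbar.V) :=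
    LinearEquiv.ofLinearMap (1 - ε • N) (1 + ε • N) hw.1 hw.2
  have hWD : ∀ (σ : GQ) (y : DualNumber k ⊗[k] ρbar.V),
      W (defEnd ρbar (c.1 σ : ↥(ad0Sub ρbar)).1 σ y) =
        defEnd ρbar (c'.1 σ : ↥(ad0Sub ρbar)).1 σ (W y) := by
    intro σ y
    have h1 := w1c_intertwine_identity ε hε ((ρbar.ρ σ).baseChange (DualNumber k))
      ((c'.1 σ : ↥(ad0Sub ρbar)).1.baseChange (DualNumber k))
      ((c.1 σ : ↥(ad0Sub ρbar)).1.baseChange (DualNumber k)) N (by
        rw [hN, ← LinearMap.baseChange_mul, ← LinearMap.baseChange_mul,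
          ← LinearMap.baseChange_mul, ← LinearMap.baseChange_mul, ← LinearMap.baseChange_sub,
          ← LinearMap.baseChange_sub, hrel σ])
    rw [← w1c_defEnd_eq, ← w1c_defEnd_eq] at h1
    exact LinearMap.congr_fun h1 y
  refine ⟨⟨e.symm.trans (W.trans e'), fun σ x => ?_⟩⟩
  obtain ⟨y, rfl⟩ := e.surjective x
  rw [he σ y]
  simp only [LinearEquiv.trans_apply, LinearEquiv.symm_apply_apply]
  rw [hWD σ y, he' σ (W y)]

end Intertwine

/-- W1a-3: if every tangent point of type `𝒟` comes from a cocycle and the set of tangent classes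
is finite with at most `N` elements, the deformations of type `𝒟` to `k[ε]` fall into at most `N`
classes. -/
theorem w1c_tangentCardLe_of {𝒪 : Type} [CommRing 𝒪] [IsLocalRing 𝒪]
    (ρbar : ResidualGaloisRep (ResidueField 𝒪))
    {𝒟 : ∀ ⦃A : Type⦄ [CommRing A] [IsLocalRing A] [Algebra 𝒪 A], GaloisRepAdic A → Prop}
    (hex : ∀ ρ : GaloisRepAdic (DualNumber (ResidueField 𝒪)), IsTangentPoint 𝒪 ρbar 𝒟 ρ →
      ∃ c : ↥(Z1 levelsAll (ad0 ρbar)), IsDefOf ρbar c.1 ρ)
    (N : ℕ) (hN : 0 < N) (hfin : (TangentClasses 𝒪 ρbar 𝒟).Finite)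
    (hcard : (TangentClasses 𝒪 ρbar 𝒟).ncard ≤ N) :
    TangentCardLe 𝒪 ρbar 𝒟 N := by
  classical
  choose cOf hcOf using hex
  have : Finite ↥(TangentClasses 𝒪 ρbar 𝒟) := hfin.to_subtype
  have hcard' : Nat.card ↥(TangentClasses 𝒪 ρbar 𝒟) ≤ N := by
    rw [Nat.card_coe_set_eq]
    exact hcard
  let j : ↥(TangentClasses 𝒪 ρbar 𝒟) → Fin N := fun x =>
    Fin.castLE hcard' (Finite.equivFin _ x)
  have hj : Function.Injective j := fun x y hxy =>
    (Finite.equivFin _).injective (Fin.castLE_injective hcard' hxy)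
  have hmem : ∀ (ρ : GaloisRepAdic (DualNumber (ResidueField 𝒪)))
      (h : IsTangentPoint 𝒪 ρbar 𝒟 ρ),
      H1smπ levelsAll (ad0 ρbar) (cOf ρ h) ∈ TangentClasses 𝒪 ρbar 𝒟 :=
    fun ρ h => ⟨cOf ρ h, rfl, ρ, h, hcOf ρ h⟩
  refine ⟨fun ρ => if h : IsTangentPoint 𝒪 ρbar 𝒟 ρ then j ⟨_, hmem ρ h⟩ else ⟨0, hN⟩, ?_⟩
  intro ρ ρ' h h' hf
  simp only [dif_pos h, dif_pos h'] at hf
  have h1 := congrArg Subtype.val (hj hf)
  exact w1c_isEquiv_of_isDefOf ρbar (cOf ρ h) (cOf ρ' h') ρ ρ' (hcOf ρ h) (hcOf ρ' h') h1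

end Fermat.Agent.S56
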